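import Fermat.Agent.H92.MW.CoreInterfaces

/-!
# P-MW / MW-NPOLY (helper2): Northcott for monic polynomials over `ℚ`

Every coefficient `c` of a monic polynomial `f` satisfies `logHeight₁ c ≤ polyHeight f` (the pair
`(c, 1)` is a subvector of the coefficient vector), and `ℚ` has the Northcott property.

* `mw_coeff_logHeight₁_le`
* `northcottPoly : Fermat.Agent.H92.MW.NorthcottPolyStatement`
-/

set_option autoImplicit false

noncomputable section

open Polynomial Height

namespace Fermat.Agent.H2

/-- the height of a coefficient of a monic polynomial is at most the height of the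
polynomial -/
theorem mw_coeff_logHeight₁_le (f : ℚ[X]) (hf : f.Monic) (i : ℕ) :
    logHeight₁ (f.coeff i) ≤ Fermat.Agent.H92.MW.polyHeight f := by
  by_cases hi : i ≤ f.natDegree
  · rw [logHeight₁_eq_logHeight]
    let x : Fin (f.natDegree + 1) → ℚ := fun i => f.coeff i
    let g : Fin 2 → Fin (f.natDegree + 1) :=
      ![⟨i, Nat.lt_succ_of_le hi⟩, ⟨f.natDegree, Nat.lt_succ_self _⟩]
    have h : (![f.coeff i, 1] : Fin 2 → ℚ) = x ∘ g := by
      funext k
      fin_cases k
      · simp [x, g]
      · simp [x, g, hf.coeff_natDegree]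
    rw [h]
    exact logHeight_comp_le g x
  · rw [coeff_eq_zero_of_natDegree_lt (not_le.mp hi), logHeight₁_zero]
    exact logHeight_nonneg _

/-- **MW-NPOLY**: Northcott for monic polynomials of bounded degree over `ℚ`. -/
theorem northcottPoly : Fermat.Agent.H92.MW.NorthcottPolyStatement := by
  intro d B
  have hS : {x : ℚ | logHeight₁ x ≤ B}.Finite := NumberField.finite_setOfPred_logHeight₁_le ℚ B
  let π : ℚ[X] → Fin (d + 1) → ℚ := fun f i => f.coeff i
  refine ((Set.Finite.pi fun _ => hS).subset ?_).of_finite_image (?_ : Set.InjOn π _)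
  · exact Set.image_subset_iff.2 fun f hf i _ => (mw_coeff_logHeight₁_le f hf.1 i).trans hf.2.2
  · intro x hx y hy hxy
    exact (ext_iff_natDegree_le hx.2.1 hy.2.1).2 fun i hi =>
      congr_fun hxy ⟨i, Nat.lt_succ_of_le hi⟩

end Fermat.Agent.H2
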