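/-
helper2, P-MW / Block E, row 880 (MW-E-RDED): `R = ratHolo P₀` is a Dedekind domain, a
`ℚ`-algebra of finite type, and not a field.

Route: a nonconstant `t ∈ R` exists (a function with a single pole at `P₀` exists over `ℚ̄` by
Riemann, and `holo P₀` is spanned by `R` over `ℚ̄`); then `R` is the integral closure of `ℚ[t]`
in `F₀` (`⊆` by extension of places to `ℚ̄ F₀`, `⊇` because valuation rings are integrally
closed).
-/
import Fermat.Agent.H39.MW.ModStatements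
import Fermat.Agent.H53.ES.OpenStab
import Fermat.Agent.H2.KLBRPlace
import Fermat.Agent.H19.RH.FrameDict
import Fermat.Agent.H84.PlaceDeg
import Fermat.Agent.H56.RH.Bases

set_option autoImplicit false
set_option linter.style.haveILetI false
set_option linter.unusedSectionVars false

noncomputable section

open AlgebraicCurve ModularCurve TensorProduct Module IsDedekindDomain Polynomial

namespace Fermat.Agent.H2

open Fermat.Agent.H39.MW Fermat.Agent.H92.MW

section rded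

variable {F₀ : IntermediateField ℚ (LaurentSeries ℚ)}

theorem rded_emb_comp :
    (emb F₀).comp (algebraMap ℚ ↥F₀) = (algebraMap QQbar (FB F₀)).comp (algebraMap ℚ QQbar) :=
  RingHom.ext fun c => emb_algebraMap F₀ c

theorem rded_emb_aeval (t : ↥F₀) (p : ℚ[X]) :
    emb F₀ (aeval t p) = aeval (emb F₀ t) (p.map (algebraMap ℚ QQbar)) := by
  rw [aeval_def, aeval_def, hom_eval₂, eval₂_map, rded_emb_comp]

/-- an element of `F₀` which becomes constant over `ℚ̄` is a rational constant -/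
theorem rded_const_of_emb_const (t : ↥F₀) (a : QQbar)
    (h : emb F₀ t = algebraMap QQbar (FB F₀) a) : ∃ c : ℚ, t = algebraMap ℚ ↥F₀ c := by
  have h1 : coeffEmb QQbar (t : LaurentSeries ℚ) = HahnSeries.single 0 a := by
    have := congrArg (fun z : FB F₀ => (z : LaurentSeries QQbar)) h
    simp only [coe_emb] at this
    rw [this, ← algebraMap_laurentSeries_eq_single]
    rfl
  refine ⟨(t : LaurentSeries ℚ).coeff 0, Subtype.ext ?_⟩
  have key : ∀ c : ℚ, ((algebraMap ℚ ↥F₀ c : ↥F₀) : LaurentSeries ℚ) =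
      algebraMap ℚ (LaurentSeries ℚ) c := fun c =>
    DFunLike.congr_fun (RingHom.ext_rat
      ((algebraMap ↥F₀ (LaurentSeries ℚ)).comp (algebraMap ℚ ↥F₀))
      (algebraMap ℚ (LaurentSeries ℚ))) c
  rw [key, algebraMap_laurentSeries_eq_single]
  ext k
  by_cases hk : k = 0
  · subst hk
    simp
  · rw [HahnSeries.coeff_single_of_ne hk]
    have h2 := congrArg (fun z : LaurentSeries QQbar => z.coeff k) h1
    simp only [coeffEmb_coeff, HahnSeries.coeff_single_of_ne hk] at h2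
    exact (map_eq_zero (algebraMap ℚ QQbar)).mp h2

theorem rded_transcendental_emb {t : ↥F₀} (ht : ∀ c : ℚ, t ≠ algebraMap ℚ ↥F₀ c) :
    Transcendental QQbar (emb F₀ t) := by
  intro halg
  obtain ⟨a, ha⟩ := Fermat.Agent.H84.mem_range_algebraMap_of_isAlgebraic halg
  obtain ⟨c, hc⟩ := rded_const_of_emb_const t a ha.symm
  exact ht c hc

theorem rded_transcendental {t : ↥F₀} (ht : ∀ c : ℚ, t ≠ algebraMap ℚ ↥F₀ c) :
    Transcendental ℚ t := by
  intro halg
  apply rded_transcendental_emb ht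
  obtain ⟨p, hp0, hp⟩ := halg
  refine ⟨p.map (algebraMap ℚ QQbar), ?_, ?_⟩
  · rwa [Ne, Polynomial.map_eq_zero]
  · rw [← rded_emb_aeval, hp, map_zero]

/-- a nonconstant element of `R` exists -/
theorem rded_exists_nonconstant (hB : BaseChangeStatement) (P₀ : Place QQbar (FB F₀))
    (hS : CuspSetting F₀ P₀) :
    ∃ t : ↥F₀, t ∈ ratHolo P₀ ∧ ∀ c : ℚ, t ≠ algebraMap ℚ ↥F₀ c := by
  by_contra hcon
  push Not at hcon
  obtain ⟨Θ, hΘ, -⟩ := hB F₀ P₀ hS
  obtain ⟨f, hf0, hfP, hfQ⟩ := Fermat.Agent.H53.exists_single_pole hS.rr P₀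
  have hfmem : f ∈ holo P₀ := fun v hv => Fermat.Agent.H23.mem_of_ord_nonneg v (hfQ v hv)
  have hconst : ∀ x : QQbar ⊗[ℚ] ↥(ratHolo P₀), ∃ a : QQbar,
      ((Θ x : ↥(holo P₀)) : FB F₀) = algebraMap QQbar (FB F₀) a := by
    intro x
    induction x using TensorProduct.induction_on with
    | zero => exact ⟨0, by simp⟩
    | tmul a g =>
      obtain ⟨c, hc⟩ := hcon g.1 g.2
      refine ⟨a * algebraMap ℚ QQbar c, ?_⟩
      rw [hΘ, hc, emb_algebraMap, map_mul]
    | add x y hx hy =>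
      obtain ⟨a, ha⟩ := hx
      obtain ⟨b, hb⟩ := hy
      exact ⟨a + b, by rw [map_add, Subalgebra.coe_add, ha, hb, map_add]⟩
  obtain ⟨a, ha⟩ := hconst (Θ.symm ⟨f, hfmem⟩)
  rw [RingEquiv.apply_symm_apply] at ha
  simp only at ha
  rw [ha, Fermat.Agent.H23.ord_algebraMap] at hfP
  exact lt_irrefl _ hfP

/-- a nonconstant element of `R` has a pole at `P₀` -/
theorem rded_pole (P₀ : Place QQbar (FB F₀)) (hS : CuspSetting F₀ P₀) {t : ↥F₀}
    (htR : t ∈ ratHolo P₀) (htc : ∀ c : ℚ, t ≠ algebraMap ℚ ↥F₀ c) :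
    P₀.ord (emb F₀ t) < 0 := by
  by_contra h
  push Not at h
  haveI := hS.rr.principal
  have hmem : emb F₀ t ∈ riemannRochSpace (0 : Divisor QQbar (FB F₀)) := by
    rw [mem_riemannRochSpace_iff]
    intro v
    right
    simp only [Finsupp.coe_zero, Pi.zero_apply, neg_zero]
    by_cases hv : v = P₀
    · rw [hv]
      exact h
    · exact Fermat.Agent.H23.ord_nonneg_of_mem v (htR v hv)
  obtain ⟨a, ha⟩ := (Fermat.Agent.H58.rr_mem_zero_iff hS.rr.deg_one P₀).mp hmem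
  obtain ⟨c, hc⟩ := rded_const_of_emb_const t a ha
  exact htc c hc

open Fermat.Agent.H56.RH in
/-- integral over `ℚ[t]` implies regular outside `P₀` -/
theorem rded_mem_of_isIntegral (P₀ : Place QQbar (FB F₀)) {t : ↥F₀} (htR : t ∈ ratHolo P₀)
    (f : ↥F₀)
    (hf : letI := polyAlgebra (K := ℚ) t
      IsIntegral ℚ[X] f) : f ∈ ratHolo P₀ := by
  letI := polyAlgebra (K := ℚ) t
  intro v hv
  have hT : emb F₀ t ∈ v.toValuationSubring := htR v hv
  let ψ : ℚ[X] →+* v.toValuationSubring :=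
    ((aeval (⟨emb F₀ t, hT⟩ : v.toValuationSubring) :
      QQbar[X] →ₐ[QQbar] v.toValuationSubring) : QQbar[X] →+* v.toValuationSubring).comp
      (mapRingHom (algebraMap ℚ QQbar))
  have hψ : (algebraMap v.toValuationSubring (FB F₀)).comp ψ =
      (emb F₀).comp (algebraMap ℚ[X] ↥F₀) := by
    apply Polynomial.ringHom_ext
    · intro c
      simp only [RingHom.coe_comp, Function.comp_apply, ψ, coe_mapRingHom, map_C,
        RingHom.coe_coe, aeval_C, polyAlgebra_algebraMap]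
      rw [emb_algebraMap]
      rfl
    · simp only [RingHom.coe_comp, Function.comp_apply, ψ, coe_mapRingHom, map_X,
        RingHom.coe_coe, aeval_X, polyAlgebra_algebraMap]
      rfl
  have h1 : IsIntegral v.toValuationSubring (emb F₀ f) := hf.map_of_comp_eq ψ (emb F₀) hψ
  obtain ⟨b, hb⟩ := IsIntegrallyClosed.isIntegral_iff.mp h1
  rw [← hb]
  exact b.2

section frame

open Fermat.Agent.H56.RH Fermat.Agent.H19

variable [Algebra ℚ[X] ↥F₀] [Algebra (RatFunc ℚ) ↥F₀] [IsScalarTower ℚ ℚ[X] ↥F₀]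
  [IsScalarTower ℚ[X] (RatFunc ℚ) ↥F₀] [IsScalarTower ℚ (RatFunc ℚ) ↥F₀]
  [FiniteDimensional (RatFunc ℚ) ↥F₀] [Algebra.IsSeparable (RatFunc ℚ) ↥F₀]

/-- regular outside `P₀` implies integral over `ℚ[t]` -/
theorem rded_isIntegral_of_mem (P₀ : Place QQbar (FB F₀)) (hS : CuspSetting F₀ P₀) {t : ↥F₀}
    (htX : algebraMap ℚ[X] ↥F₀ X = t)
    (htR : t ∈ ratHolo P₀) (htc : ∀ c : ℚ, t ≠ algebraMap ℚ ↥F₀ c)
    (f : ↥F₀) (hf : f ∈ ratHolo P₀) : IsIntegral ℚ[X] f := by
  haveI := isDedekindDomain_integralClosure ℚ[X] (RatFunc ℚ) ↥F₀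
  haveI := isFractionRing_integralClosure ℚ[X] (RatFunc ℚ) ↥F₀
  have key := rh_mem_range_of_forall_ord_nonneg (K := ℚ) (F := ↥F₀)
    (R := integralClosure ℚ[X] ↥F₀) f (fun w => ?_)
  · obtain ⟨b, rfl⟩ := key
    exact b.2
  by_contra hneg
  push Not at hneg
  obtain ⟨x₀, -, -, hx3, hx4⟩ := hS.sep
  haveI : Algebra.IsAlgebraic ℚ QQbar := AlgebraicClosure.isAlgebraic ℚ
  obtain ⟨w', e, he, hw'⟩ := klbr_place_above (emb F₀) (emb_algebraMap F₀) (emb F₀ x₀) hx3 hx4
    (Place.ofHeightOneSpectrum (K := ℚ) (F := ↥F₀) w)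
  have h1 : w'.ord (emb F₀ f) < 0 := by
    rw [hw']
    have he' : (0 : ℤ) < (e : ℤ) := by exact_mod_cast he
    nlinarith
  have hw'P : w' = P₀ := by
    by_contra hne
    have := Fermat.Agent.H23.ord_nonneg_of_mem w' (hf w' hne)
    omega
  have h2 : 0 ≤ (Place.ofHeightOneSpectrum (K := ℚ) (F := ↥F₀) w).ord t := by
    have := rh_ord_ofHeightOneSpectrum_nonneg (K := ℚ) (F := ↥F₀) w
      (algebraMap ℚ[X] (integralClosure ℚ[X] ↥F₀) X)
    rwa [← IsScalarTower.algebraMap_apply ℚ[X] (integralClosure ℚ[X] ↥F₀) ↥F₀, htX] at this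
  have h3 : 0 ≤ P₀.ord (emb F₀ t) := by
    rw [← hw'P, hw']
    positivity
  exact absurd (rded_pole P₀ hS htR htc) (not_lt.mpr h3)

end frame

end rded

open Fermat.Agent.H56.RH Fermat.Agent.H19 in
/-- **MW-E-RDED.**  `R = ratHolo P₀` is a Dedekind domain, a `ℚ`-algebra of finite type, and not
a field. -/
theorem ratDedekind (hfin : FiniteOverStatement) (hB : BaseChangeStatement) :
    RatDedekindStatement := by
  intro F₀ P₀ hS
  obtain ⟨t, htR, htc⟩ := rded_exists_nonconstant hB P₀ hS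
  have ht : Transcendental ℚ t := rded_transcendental htc
  obtain ⟨x₀, -, hx2, -, -⟩ := hS.sep
  have hfin_t : FiniteDimensional ↥(IntermediateField.adjoin ℚ ({t} : Set ↥F₀)) ↥F₀ :=
    hfin ℚ ↥F₀ x₀ t hx2 ht
  letI := polyAlgebra (K := ℚ) t
  letI := ratFuncAlgebra t ht
  haveI := isScalarTower_poly_ratFunc t ht
  haveI := isScalarTower_const_poly (K := ℚ) t
  haveI := isScalarTower_const_ratFunc t ht
  haveI hsep : Algebra.IsSeparable ↥(IntermediateField.adjoin ℚ ({t} : Set ↥F₀)) ↥F₀ :=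
    inferInstance
  obtain ⟨hfd, hsp, -⟩ := rhFrame ℚ ↥F₀ t ht hfin_t hsep
  haveI := hfd
  haveI := hsp
  have htX : algebraMap ℚ[X] ↥F₀ X = t := by
    rw [polyAlgebra_algebraMap, aeval_X]
  -- the `ℚ[X]`-algebra structure of `R`
  letI : Algebra ℚ[X] ↥(ratHolo P₀) :=
    ((aeval (⟨t, htR⟩ : ↥(ratHolo P₀)) : ℚ[X] →ₐ[ℚ] ↥(ratHolo P₀)) :
      ℚ[X] →+* ↥(ratHolo P₀)).toAlgebra
  have hcoe : ∀ p : ℚ[X], ((algebraMap ℚ[X] ↥(ratHolo P₀) p : ↥(ratHolo P₀)) : ↥F₀) =
      algebraMap ℚ[X] ↥F₀ p := by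
    intro p
    rw [polyAlgebra_algebraMap]
    exact (aeval_algHom_apply (ratHolo P₀).val (⟨t, htR⟩ : ↥(ratHolo P₀)) p).symm
  haveI : IsScalarTower ℚ[X] ↥(ratHolo P₀) ↥F₀ :=
    IsScalarTower.of_algebraMap_eq fun p => (hcoe p).symm
  haveI : IsScalarTower ℚ ℚ[X] ↥(ratHolo P₀) :=
    IsScalarTower.of_algebraMap_eq fun c => by
      apply Subtype.ext
      rw [hcoe, ← IsScalarTower.algebraMap_apply ℚ ℚ[X] ↥F₀]
      rfl
  haveI : IsIntegralClosure ↥(ratHolo P₀) ℚ[X] ↥F₀ :=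
    { algebraMap_injective := Subtype.val_injective
      isIntegral_iff := fun {x} =>
        ⟨fun hx => ⟨⟨x, rded_mem_of_isIntegral P₀ htR x hx⟩, rfl⟩,
          fun ⟨y, hy⟩ => hy ▸ rded_isIntegral_of_mem P₀ hS htX htR htc y.1 y.2⟩ }
  haveI := isTorsionFree_of_tower ℚ[X] (RatFunc ℚ) ↥F₀
  refine ⟨IsIntegralClosure.isDedekindDomain ℚ[X] (RatFunc ℚ) ↥F₀ ↥(ratHolo P₀), ?_, ?_⟩
  · haveI : Module.Finite ℚ[X] ↥(ratHolo P₀) :=
      IsIntegralClosure.finite ℚ[X] (RatFunc ℚ) ↥F₀ ↥(ratHolo P₀)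
    exact Algebra.FiniteType.trans (S := ℚ[X]) inferInstance inferInstance
  · intro hfield
    haveI : Algebra.IsIntegral ℚ[X] ↥(ratHolo P₀) :=
      IsIntegralClosure.isIntegral_algebra ℚ[X] ↥F₀
    have hinj : Function.Injective (algebraMap ℚ[X] ↥(ratHolo P₀)) := by
      intro p q hpq
      have h1 := congrArg (fun z : ↥(ratHolo P₀) => (z : ↥F₀)) hpq
      simp only [hcoe] at h1
      exact polyAlgebra_injective ht h1
    exact Polynomial.not_isField ℚ (isField_of_isIntegral_of_isField hinj hfield)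

end Fermat.Agent.H2

end
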