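/-
helper2, P-MW / Block E, row 880 (MW-E-RDED): wiring of `ratDedekind` with the landed blocks
MW-E-FIN (helper47), MW-E-BC (helper50), MW-E-DESC (helper27).
-/
import Fermat.Agent.H2.MW.RatDedekind
import Fermat.Agent.H47.MW.FiniteOver
import Fermat.Agent.H50.MW.BaseChange
import Fermat.Agent.H27.MW.Descent

set_option autoImplicit false

namespace Fermat.Agent.H2

open Fermat.Agent.H39.MW

/-- **MW-E-RDED** from the base change statement. -/
theorem ratDedekind_of_baseChange (hB : BaseChangeStatement) : RatDedekindStatement :=
  ratDedekind Fermat.Agent.H47.MW.finiteOver hB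

/-- **MW-E-RDED** from the fixed-point statement MW-E-FIX. -/
theorem ratDedekind_of_fixed (hfix : FixedStatement) : RatDedekindStatement :=
  ratDedekind_of_baseChange
    (Fermat.Agent.H50.baseChangeStatement hfix Fermat.Agent.H27.MW.descentStatement)

end Fermat.Agent.H2
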